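import Mathlib

/-!
# UnitsAlt / LemmaX / Cyclic (hedge block, owner helper10): the order of a cyclic quotient divides
any exponent killing its generator.  FROZEN statement.
-/

set_option autoImplicit false

namespace Fermat.Agent.S14.Thaine.UnitsAlt

theorem lx_relIndex_dvd {Λ : Type*} [AddCommGroup Λ] (A L : AddSubgroup Λ) (hAL : A ≤ L)
    (v : Λ) (hv : v ∈ L) (hcyc : ∀ x ∈ L, ∃ n : ℤ, x - n • v ∈ A) (N : ℕ) (hN : N • v ∈ A) :
    A.relIndex L ∣ N := by
  have _ := hAL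
  rw [AddSubgroup.relIndex, AddSubgroup.index_eq_card]
  set g : L ⧸ A.addSubgroupOf L := QuotientAddGroup.mk (⟨v, hv⟩ : L) with hg
  have hall : ∀ y : L ⧸ A.addSubgroupOf L, y ∈ AddSubgroup.zmultiples g := by
    intro y
    obtain ⟨x, rfl⟩ := QuotientAddGroup.mk_surjective y
    obtain ⟨n, hn⟩ := hcyc (x : Λ) x.2
    refine AddSubgroup.mem_zmultiples_iff.mpr ⟨n, ?_⟩
    rw [hg, ← QuotientAddGroup.mk_zsmul]
    refine (QuotientAddGroup.eq).mpr ?_
    rw [AddSubgroup.mem_addSubgroupOf]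
    have : ((-(n • (⟨v, hv⟩ : L)) + x : L) : Λ) = (x : Λ) - n • v := by
      push_cast
      abel
    rw [this]
    exact hn
  rw [← addOrderOf_eq_card_of_forall_mem_zmultiples hall]
  refine addOrderOf_dvd_of_nsmul_eq_zero ?_
  rw [hg, ← QuotientAddGroup.mk_nsmul]
  refine (QuotientAddGroup.eq_zero_iff _).mpr ?_
  rw [AddSubgroup.mem_addSubgroupOf]
  simpa using hN

end Fermat.Agent.S14.Thaine.UnitsAlt
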