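import Mathlib

/-!
# UnitsAlt / LemmaX / Finite (hedge block, owner helper10): if a finitely generated subgroup has
finite index in `Λ`, then `pΛ` has finite index in `Λ`.  FROZEN statement.
-/

set_option autoImplicit false

namespace Fermat.Agent.S14.Thaine.UnitsAlt

theorem lx_index_smul_ne_zero {Λ : Type*} [AddCommGroup Λ] (p : ℕ) (hp : 0 < p)
    (s : Set Λ) (hs : s.Finite) (hfin : (AddSubgroup.closure s).index ≠ 0)
    (P : AddSubgroup Λ) (hP : ∀ x : Λ, x ∈ P ↔ ∃ y : Λ, x = p • y) :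
    P.index ≠ 0 := by
  classical
  set H : AddSubgroup Λ := AddSubgroup.closure s with hH
  have : Finite s := hs.to_subtype
  have hfg : AddGroup.FG H := AddGroup.closure_finite_fg s
  -- the subgroup `p • H` of `H`
  set Q : AddSubgroup H := (nsmulAddMonoidHom (α := H) p).range with hQ
  have hQfg : AddGroup.FG (H ⧸ Q) := QuotientAddGroup.fg Q
  have htors : IsAddTorsion (H ⧸ Q) :=
    AddCommGroup.isAddTorsion_quotient_range_nsmulAddMonoidHom H hp.ne'
  have hQfin : Finite (H ⧸ Q) := AddCommGroup.finite_of_fg_isAddTorsion (H ⧸ Q) htors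
  have hQidx : Q.index ≠ 0 := AddSubgroup.index_ne_zero_of_finite
  -- push forward to `Λ`
  set P₀ : AddSubgroup Λ := Q.map H.subtype with hP₀
  have hP₀H : P₀ ≤ H := by
    rintro x ⟨y, -, rfl⟩
    exact y.2
  have hsub : P₀.addSubgroupOf H = Q := by
    rw [hP₀]
    exact AddSubgroup.comap_map_eq_self_of_injective H.subtype_injective Q
  have hP₀idx : P₀.index ≠ 0 := by
    rw [← AddSubgroup.relIndex_mul_index hP₀H]
    refine mul_ne_zero ?_ hfin
    rw [AddSubgroup.relIndex, hsub]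
    exact hQidx
  have hle : P₀ ≤ P := by
    rintro x ⟨y, ⟨z, rfl⟩, rfl⟩
    rw [hP]
    exact ⟨(z : Λ), by simp⟩
  exact fun h0 => hP₀idx (Nat.eq_zero_of_zero_dvd (h0 ▸ AddSubgroup.index_dvd_of_le hle))

end Fermat.Agent.S14.Thaine.UnitsAlt
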