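import Mathlib

/-!
# UnitsAlt / LemmaX / Indep (hedge block, owner helper10): two elements independent modulo `p`
span a subgroup of order `p^2` modulo `pΛ`.  FROZEN statement.
-/

set_option autoImplicit false

namespace Fermat.Agent.S14.Thaine.UnitsAlt

theorem lx_sq_dvd_relIndex {Λ : Type*} [AddCommGroup Λ] (p : ℕ) (hp : p.Prime)
    (P : AddSubgroup Λ) (hP : ∀ x : Λ, x ∈ P ↔ ∃ y : Λ, x = p • y) (hPfin : P.index ≠ 0)
    (x₁ x₂ : Λ) (h₂ : x₂ ∉ P) (h₁ : ¬ ∃ k : ℤ, x₁ - k • x₂ ∈ P) :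
    p ^ 2 ∣ P.relIndex (AddSubgroup.closure {x₁, x₂} ⊔ P) := by
  classical
  set W : AddSubgroup Λ := AddSubgroup.closure {x₁, x₂} ⊔ P with hW
  have hx₁ : x₁ ∈ W :=
    (le_sup_left : AddSubgroup.closure {x₁, x₂} ≤ W) (AddSubgroup.subset_closure (by simp))
  have hx₂ : x₂ ∈ W :=
    (le_sup_left : AddSubgroup.closure {x₁, x₂} ≤ W) (AddSubgroup.subset_closure (by simp))
  have hcard : P.relIndex W = Nat.card (W ⧸ P.addSubgroupOf W) := rfl
  have hne : Nat.card (W ⧸ P.addSubgroupOf W) ≠ 0 := by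
    rw [← hcard]
    intro h
    have hdvd : P.relIndex W ∣ P.index := AddSubgroup.relIndex_dvd_index_of_le le_sup_right
    rw [h] at hdvd
    exact hPfin (Nat.eq_zero_of_zero_dvd hdvd)
  have : Finite (W ⧸ P.addSubgroupOf W) := Nat.finite_of_card_ne_zero hne
  have hmk0 : ∀ w : W, (QuotientAddGroup.mk w : W ⧸ P.addSubgroupOf W) = 0 ↔ (w : Λ) ∈ P := by
    intro w
    rw [QuotientAddGroup.eq_zero_iff, AddSubgroup.mem_addSubgroupOf]
  have hkill : ∀ g : W ⧸ P.addSubgroupOf W, p • g = 0 := by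
    intro g
    induction g using QuotientAddGroup.induction_on with
    | H w =>
      have : (QuotientAddGroup.mk (p • w) : W ⧸ P.addSubgroupOf W) = 0 := by
        rw [hmk0]
        exact (hP _).2 ⟨(w : Λ), by simp⟩
      simpa using this
  -- the cardinality is a power of `p`
  have hpow : Nat.card (W ⧸ P.addSubgroupOf W)
      = p ^ (Nat.card (W ⧸ P.addSubgroupOf W)).primeFactorsList.length := by
    apply Nat.eq_prime_pow_of_unique_prime_dvd hne
    intro q hq hqd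
    have : Fact q.Prime := ⟨hq⟩
    obtain ⟨g, hg⟩ := exists_prime_addOrderOf_dvd_card' (G := W ⧸ P.addSubgroupOf W) q hqd
    have h1 : addOrderOf g ∣ p := addOrderOf_dvd_of_nsmul_eq_zero (hkill g)
    rw [hg] at h1
    exact (Nat.prime_dvd_prime_iff_eq hq hp).1 h1
  set n := (Nat.card (W ⧸ P.addSubgroupOf W)).primeFactorsList.length with hn
  -- the cyclic subgroup generated by the class of `x₂`
  set g₁ : W ⧸ P.addSubgroupOf W := QuotientAddGroup.mk ⟨x₁, hx₁⟩ with hg₁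
  set g₂ : W ⧸ P.addSubgroupOf W := QuotientAddGroup.mk ⟨x₂, hx₂⟩ with hg₂
  have hg₂0 : g₂ ≠ 0 := by
    intro h
    exact h₂ ((hmk0 _).1 h)
  have hord : addOrderOf g₂ = p := by
    have h1 : addOrderOf g₂ ∣ p := addOrderOf_dvd_of_nsmul_eq_zero (hkill g₂)
    rcases (Nat.dvd_prime hp).1 h1 with h | h
    · exact absurd (AddMonoid.addOrderOf_eq_one_iff.1 h) hg₂0
    · exact h
  have hZcard : Nat.card (AddSubgroup.zmultiples g₂) = p := by
    rw [Nat.card_zmultiples, hord]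
  have hg₁Z : g₁ ∉ AddSubgroup.zmultiples g₂ := by
    intro hmem
    obtain ⟨k, hk⟩ := AddSubgroup.mem_zmultiples_iff.1 hmem
    apply h₁
    refine ⟨k, ?_⟩
    have h0 : (QuotientAddGroup.mk ((⟨x₁, hx₁⟩ : W) - k • (⟨x₂, hx₂⟩ : W)) :
        W ⧸ P.addSubgroupOf W) = 0 := by
      rw [QuotientAddGroup.mk_sub, QuotientAddGroup.mk_zsmul]
      rw [← hg₁, ← hg₂, hk, sub_self]
    have := (hmk0 _).1 h0
    simpa using this
  have hZtop : AddSubgroup.zmultiples g₂ ≠ ⊤ := by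
    intro h
    exact hg₁Z (h ▸ AddSubgroup.mem_top g₁)
  have hlt : p ≠ Nat.card (W ⧸ P.addSubgroupOf W) := by
    intro h
    exact hZtop (AddSubgroup.eq_top_of_card_eq _ (hZcard.trans h))
  have hdvdZ : p ∣ Nat.card (W ⧸ P.addSubgroupOf W) := by
    have := AddSubgroup.card_addSubgroup_dvd_card (AddSubgroup.zmultiples g₂)
    rwa [hZcard] at this
  rw [hcard, hpow]
  apply pow_dvd_pow
  by_contra hlt2
  have hcases : n = 0 ∨ n = 1 := by omega
  rcases hcases with h | h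
  · rw [hpow, h, pow_zero] at hdvdZ
    exact hp.one_lt.ne' (Nat.dvd_one.1 hdvdZ)
  · rw [hpow, h, pow_one] at hlt
    exact hlt rfl
end Fermat.Agent.S14.Thaine.UnitsAlt
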