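import Mathlib

/-!
# UnitsAlt / LemmaX / Index (hedge block, owner helper10): index computations for an injective
endomorphism.  FROZEN statements.
-/

set_option autoImplicit false

namespace Fermat.Agent.S14.Thaine.UnitsAlt

private theorem lx_index_map_eq {Λ : Type*} [AddCommGroup Λ] (S : Λ →+ Λ)
    (hS : Function.Injective S) (L : AddSubgroup Λ) :
    (L.map S).index = L.index * S.range.index := by
  have h1 : (L.map S).relIndex S.range * S.range.index = (L.map S).index :=
    AddSubgroup.relIndex_mul_index (AddSubgroup.map_le_range S L)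
  have h2 : (L.map S).relIndex S.range = L.index := by
    rw [AddMonoidHom.range_eq_map, AddSubgroup.relIndex_map_map_of_injective L ⊤ hS,
      AddSubgroup.relIndex_top_right]
  rw [← h1, h2]

theorem lx_index_range_eq {Λ : Type*} [AddCommGroup Λ] (S : Λ →+ Λ) (hS : Function.Injective S)
    (L : AddSubgroup Λ) (hL : L.index ≠ 0) (hSL : L.map S ≤ L) :
    S.range.index = (L.map S).relIndex L := by
  have h1 : (L.map S).index = L.index * S.range.index := lx_index_map_eq S hS L
  have h2 : (L.map S).relIndex L * L.index = (L.map S).index :=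
    AddSubgroup.relIndex_mul_index hSL
  have h3 : L.index * S.range.index = L.index * (L.map S).relIndex L := by
    rw [← h1, ← h2, mul_comm]
  exact mul_left_cancel₀ hL h3

theorem lx_index_chain {Λ : Type*} [AddCommGroup Λ] (S : Λ →+ Λ) (hS : Function.Injective S)
    (P W : AddSubgroup Λ) (hPW : P ≤ W) (hP : P.index ≠ 0) (hSW : W.map S ≤ P) :
    S.range.index = (W.map S).relIndex P * P.relIndex W := by
  have hW : W.index ≠ 0 := fun h0 =>
    hP (Nat.eq_zero_of_zero_dvd (h0 ▸ AddSubgroup.index_dvd_of_le hPW))
  have h1 : (W.map S).index = W.index * S.range.index := lx_index_map_eq S hS W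
  have h2 : (W.map S).relIndex P * P.index = (W.map S).index :=
    AddSubgroup.relIndex_mul_index hSW
  have h3 : P.relIndex W * W.index = P.index := AddSubgroup.relIndex_mul_index hPW
  have h4 : W.index * S.range.index = W.index * ((W.map S).relIndex P * P.relIndex W) := by
    rw [← h1, ← h2, ← h3]; ring
  exact mul_left_cancel₀ hW h4

end Fermat.Agent.S14.Thaine.UnitsAlt
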