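import Mathlib

/-!
# UnitsAlt / LemmaX / Stable (hedge block, owner helper10): the subgroup generated by
`v, T v, …, T^(m-2) v` is `T`-stable and is cyclic modulo `(T - c)`.  FROZEN statements.
-/

set_option autoImplicit false

namespace Fermat.Agent.S14.Thaine.UnitsAlt

theorem lx_closure_stable {Λ : Type*} [AddCommGroup Λ] (T : Λ →+ Λ) (m : ℕ) (hm : 2 ≤ m)
    (hN : ∀ x : Λ, ∑ i ∈ Finset.range m, (⇑T)^[i] x = 0) (v : Λ) :
    ∀ x ∈ AddSubgroup.closure {x : Λ | ∃ i : ℕ, i < m - 1 ∧ x = (⇑T)^[i] v},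
      T x ∈ AddSubgroup.closure {x : Λ | ∃ i : ℕ, i < m - 1 ∧ x = (⇑T)^[i] v} := by
  intro x hx
  induction hx using AddSubgroup.closure_induction with
  | mem x hx =>
    obtain ⟨i, hi, rfl⟩ := hx
    rw [← Function.iterate_succ_apply' (⇑T) i v]
    by_cases h : i + 1 < m - 1
    · exact AddSubgroup.subset_closure ⟨i + 1, h, rfl⟩
    · have hi1 : i + 1 = m - 1 := by omega
      have hm' : m = (m - 1) + 1 := by omega
      have h0 := hN v
      rw [hm', Finset.sum_range_succ] at h0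
      have h1 : (⇑T)^[m - 1] v = -∑ j ∈ Finset.range (m - 1), (⇑T)^[j] v :=
        eq_neg_of_add_eq_zero_right h0
      have hgoal : (⇑T)^[i.succ] v = -∑ j ∈ Finset.range (m - 1), (⇑T)^[j] v := by
        rw [← h1, Nat.succ_eq_add_one, hi1]
      rw [hgoal]
      refine AddSubgroup.neg_mem _ (AddSubgroup.sum_mem _ ?_)
      intro j hj
      exact AddSubgroup.subset_closure ⟨j, Finset.mem_range.mp hj, rfl⟩
  | zero => rw [map_zero]; exact AddSubgroup.zero_mem _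
  | add x y _ _ ihx ihy => rw [map_add]; exact AddSubgroup.add_mem _ ihx ihy
  | neg x _ ihx => rw [map_neg]; exact AddSubgroup.neg_mem _ ihx

private theorem lx_stable_telescope {Λ : Type*} [AddCommGroup Λ] (T : Λ →+ Λ) (c : ℕ) (x : Λ)
    (i : ℕ) :
    T (∑ j ∈ Finset.range i, c ^ (i - 1 - j) • (⇑T)^[j] x)
        - c • ∑ j ∈ Finset.range i, c ^ (i - 1 - j) • (⇑T)^[j] x
      = (⇑T)^[i] x - c ^ i • x := by
  induction i with
  | zero => simp
  | succ i ih =>
    have hsum : ∑ j ∈ Finset.range (i + 1), c ^ (i + 1 - 1 - j) • (⇑T)^[j] x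
        = c • (∑ j ∈ Finset.range i, c ^ (i - 1 - j) • (⇑T)^[j] x) + (⇑T)^[i] x := by
      rw [Finset.sum_range_succ, Finset.smul_sum]
      congr 1
      · refine Finset.sum_congr rfl ?_
        intro j hj
        have hj' : j < i := Finset.mem_range.mp hj
        have he : i + 1 - 1 - j = (i - 1 - j) + 1 := by omega
        rw [he, pow_succ', mul_nsmul']
      · simp
    rw [hsum, map_add, map_nsmul, Function.iterate_succ_apply', nsmul_add, pow_succ', mul_nsmul']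
    have ih' : T (∑ j ∈ Finset.range i, c ^ (i - 1 - j) • (⇑T)^[j] x)
        = (⇑T)^[i] x - c ^ i • x + c • ∑ j ∈ Finset.range i, c ^ (i - 1 - j) • (⇑T)^[j] x := by
      rw [← ih]; abel
    rw [ih', nsmul_add, nsmul_sub]
    abel

theorem lx_closure_cyclic {Λ : Type*} [AddCommGroup Λ] (T : Λ →+ Λ) (m c : ℕ) (v : Λ) :
    ∀ x ∈ AddSubgroup.closure {x : Λ | ∃ i : ℕ, i < m - 1 ∧ x = (⇑T)^[i] v},
      ∃ (n : ℤ) (y : Λ),
        y ∈ AddSubgroup.closure {x : Λ | ∃ i : ℕ, i < m - 1 ∧ x = (⇑T)^[i] v} ∧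
        x = n • v + (T y - c • y) := by
  intro x hx
  induction hx using AddSubgroup.closure_induction with
  | mem x hx =>
    obtain ⟨i, hi, rfl⟩ := hx
    refine ⟨((c ^ i : ℕ) : ℤ), ∑ j ∈ Finset.range i, c ^ (i - 1 - j) • (⇑T)^[j] v, ?_, ?_⟩
    · refine AddSubgroup.sum_mem _ ?_
      intro j hj
      have hmem : (⇑T)^[j] v ∈
          AddSubgroup.closure {x : Λ | ∃ i : ℕ, i < m - 1 ∧ x = (⇑T)^[i] v} :=
        AddSubgroup.subset_closure ⟨j, lt_trans (Finset.mem_range.mp hj) hi, rfl⟩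
      exact AddSubgroup.nsmul_mem _ hmem _
    · rw [lx_stable_telescope T c v i, natCast_zsmul]
      abel
  | zero => exact ⟨0, 0, AddSubgroup.zero_mem _, by simp⟩
  | add x y _ _ ihx ihy =>
    obtain ⟨n₁, y₁, hy₁, rfl⟩ := ihx
    obtain ⟨n₂, y₂, hy₂, rfl⟩ := ihy
    refine ⟨n₁ + n₂, y₁ + y₂, AddSubgroup.add_mem _ hy₁ hy₂, ?_⟩
    rw [add_zsmul, map_add, nsmul_add]
    abel
  | neg x _ ihx =>
    obtain ⟨n, y, hy, rfl⟩ := ihx
    refine ⟨-n, -y, AddSubgroup.neg_mem _ hy, ?_⟩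
    rw [neg_zsmul, map_neg, smul_neg]
    abel

end Fermat.Agent.S14.Thaine.UnitsAlt
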