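import Mathlib

/-!
# UnitsAlt / LemmaX / Ident (hedge block, owner helper10): the polynomial identity
`(T - c) ∘ Q = Q ∘ (T - c) = -(∑_{i<m} c^i)` when `∑_{i<m} T^i = 0`.  FROZEN statement.
-/

set_option autoImplicit false

namespace Fermat.Agent.S14.Thaine.UnitsAlt

/-- iterate of an additive endomorphism, as an additive endomorphism -/
private def lxIt {Λ : Type*} [AddCommGroup Λ] (T : Λ →+ Λ) : ℕ → (Λ →+ Λ)
  | 0 => AddMonoidHom.id Λ
  | (i + 1) => T.comp (lxIt T i)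

private lemma lxIt_apply {Λ : Type*} [AddCommGroup Λ] (T : Λ →+ Λ) (i : ℕ) (x : Λ) :
    lxIt T i x = (⇑T)^[i] x := by
  induction i with
  | zero => rfl
  | succ i ih =>
    rw [Function.iterate_succ_apply', ← ih]
    rfl

/-- `P_i = ∑_{j<i} c^(i-1-j) T^j`, defined recursively. -/
private def lxP {Λ : Type*} [AddCommGroup Λ] (T : Λ →+ Λ) (c : ℕ) : ℕ → (Λ →+ Λ)
  | 0 => 0
  | (i + 1) => lxIt T i + c • lxP T c i

private lemma lxP_succ_apply {Λ : Type*} [AddCommGroup Λ] (T : Λ →+ Λ) (c i : ℕ) (x : Λ) :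
    lxP T c (i + 1) x = (⇑T)^[i] x + c • lxP T c i x := by
  rw [← lxIt_apply]
  rfl

private lemma lxP_tel {Λ : Type*} [AddCommGroup Λ] (T : Λ →+ Λ) (c i : ℕ) (x : Λ) :
    T (lxP T c i x) - c • lxP T c i x = (⇑T)^[i] x - c ^ i • x := by
  induction i with
  | zero =>
    simp [lxP]
  | succ i ih =>
    rw [lxP_succ_apply, map_add, map_nsmul, Function.iterate_succ_apply', pow_succ, mul_nsmul,
      smul_add]
    have h2 : T (lxP T c i x) = c • lxP T c i x + ((⇑T)^[i] x - c ^ i • x) := by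
      rw [← ih]; abel
    rw [h2, smul_add, smul_sub]
    abel

private lemma lxP_comm {Λ : Type*} [AddCommGroup Λ] (T : Λ →+ Λ) (c i : ℕ) (x : Λ) :
    lxP T c i (T x) = T (lxP T c i x) := by
  induction i with
  | zero => simp [lxP]
  | succ i ih =>
    rw [lxP_succ_apply, lxP_succ_apply, map_add, map_nsmul, ih, ← Function.iterate_succ_apply,
      Function.iterate_succ_apply']

private lemma lxP_mem {Λ : Type*} [AddCommGroup Λ] (T : Λ →+ Λ) (c : ℕ) (L : AddSubgroup Λ)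
    (hL : ∀ x ∈ L, T x ∈ L) (i : ℕ) (x : Λ) (hx : x ∈ L) : lxP T c i x ∈ L := by
  have hit : ∀ j : ℕ, (⇑T)^[j] x ∈ L := by
    intro j
    induction j with
    | zero => simpa using hx
    | succ j ih => rw [Function.iterate_succ_apply']; exact hL _ ih
  induction i with
  | zero => simp [lxP]
  | succ i ih =>
    rw [lxP_succ_apply]
    exact L.add_mem (hit i) (L.nsmul_mem ih c)

theorem lx_exists_Q {Λ : Type*} [AddCommGroup Λ] (T : Λ →+ Λ) (m c : ℕ)
    (hN : ∀ x : Λ, ∑ i ∈ Finset.range m, (⇑T)^[i] x = 0) :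
    ∃ Q : Λ →+ Λ,
      (∀ x, T (Q x) - c • Q x = -((∑ i ∈ Finset.range m, c ^ i) • x)) ∧
      (∀ x, Q (T x - c • x) = -((∑ i ∈ Finset.range m, c ^ i) • x)) ∧
      (∀ L : AddSubgroup Λ, (∀ x ∈ L, T x ∈ L) → ∀ x ∈ L, Q x ∈ L) := by
  have hQ : ∀ x, (∑ i ∈ Finset.range m, lxP T c i) x = ∑ i ∈ Finset.range m, lxP T c i x := by
    intro x
    simp
  have h1 : ∀ x, T ((∑ i ∈ Finset.range m, lxP T c i) x)
      - c • (∑ i ∈ Finset.range m, lxP T c i) x
      = -((∑ i ∈ Finset.range m, c ^ i) • x) := by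
    intro x
    rw [hQ, map_sum, Finset.smul_sum, ← Finset.sum_sub_distrib]
    simp_rw [lxP_tel]
    rw [Finset.sum_sub_distrib, hN x, zero_sub, Finset.sum_smul]
  refine ⟨∑ i ∈ Finset.range m, lxP T c i, h1, ?_, ?_⟩
  · intro x
    rw [map_sub, map_nsmul, ← h1 x]
    congr 1
    rw [hQ, hQ, map_sum]
    exact Finset.sum_congr rfl (fun i _ => lxP_comm T c i x)
  · intro L hL x hx
    rw [hQ]
    exact L.sum_mem (fun i _ => lxP_mem T c L hL i x hx)

end Fermat.Agent.S14.Thaine.UnitsAlt
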